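import Fermat.Agent.Lib.RR.H647.Weil

/-!
# RR library, layer L5 (helper647): canonical divisor and duality

`exists_canonical_of`: from Riemann–Roch in its first form
`ℓ(D) - dim H¹(D) = deg D + 1 - g` (for ANY integer `g`; this is L4.2 with `g = genusR`) we get a
divisor `W` with `dim H¹(D) = ℓ(W - D)` for all `D` (Stichtenoth 1.5.9 - 1.5.14).
No finiteness hypothesis on `H¹` is needed.
-/

set_option autoImplicit false

noncomputable section

open AlgebraicCurve

namespace Fermat.Agent.Lib.RR.H647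

variable {K F : Type*} [Field K] [Field F] [Algebra K F] [hFF : FF1 K F]

section numerics

variable (g : ℤ)
  (h42 : ∀ D : Divisor K F,
    (ell D : ℤ) - Module.finrank K (H1 D) = Divisor.degree D + 1 - g)

include h42

omit hFF in
theorem riemann_ineq (D : Divisor K F) : Divisor.degree D + 1 - g ≤ ell D := by
  have h := h42 D
  have : (0 : ℤ) ≤ Module.finrank K (H1 D) := Int.natCast_nonneg _
  omega

theorem g_nonneg : 0 ≤ g := by
  have h := h42 0
  rw [ell_zero, map_zero] at h
  have : (0 : ℤ) ≤ Module.finrank K (H1 (0 : Divisor K F)) := Int.natCast_nonneg _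
  push_cast at h
  omega

theorem finrank_Om_of_neg {D : Divisor K F} (hD : Divisor.degree D < 0) :
    (Module.finrank K (Om D) : ℤ) = -Divisor.degree D - 1 + g := by
  have h := h42 D
  rw [ell_eq_zero_of_degree_neg hD] at h
  rw [finrank_Om]
  push_cast at h
  omega

theorem finite_Om_of_le {D : Divisor K F} (hD : Divisor.degree D ≤ -2) :
    Module.Finite K (Om D) := by
  have h := finrank_Om_of_neg g h42 (D := D) (by omega)
  have hg := g_nonneg g h42
  have hpos : 0 < Module.finrank K (Om D) := by omega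
  have := @FiniteDimensional.of_finrank_pos K (Om D) _ _ _ hpos
  exact this

/-- A nonzero Weil differential vanishing on `𝔸(A)` forces `deg A ≤ 2g - 2`. -/
theorem degree_le_of_mem_Om {A : Divisor K F} {ω : Module.Dual K ↥(repartitions K F)}
    (hω : ω ∈ Om A) (hω0 : ω ≠ 0) : Divisor.degree A ≤ 2 * g - 2 := by
  obtain ⟨P⟩ := hFF.nonempty_place
  set D : Divisor K F := -((2 : ℤ) • prim P) with hD
  have hdegD : Divisor.degree D = -2 := by
    rw [hD, map_neg, map_zsmul, degree_prim']; simp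
  have : Module.Finite K (Om D) := finite_Om_of_le g h42 (by omega)
  let ψ : riemannRochSpace (A - D) →ₗ[K] Om D :=
    LinearMap.codRestrict (Om D) ((tw ω).domRestrict (riemannRochSpace (A - D)))
      (fun x => tw_mem_Om_of_mem_L hω x.2)
  have hinj : Function.Injective ψ := by
    rw [injective_iff_map_eq_zero]
    intro x hx
    have h1 : tw ω (x : F) = 0 := congrArg Subtype.val hx
    by_contra hx0
    exact hω0 (eq_zero_of_tw_eq_zero (fun h => hx0 (Subtype.ext h)) h1)
  have h1 := LinearMap.finrank_le_finrank_of_injective hinj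
  have h2 := finrank_Om_of_neg g h42 (D := D) (by omega)
  have h3 := riemann_ineq g h42 (A - D)
  rw [map_sub, hdegD] at h3
  have h4 : (ell (A - D) : ℤ) ≤ Module.finrank K (Om D) := by
    unfold ell; exact_mod_cast h1
  omega

/-- Any two nonzero Weil differentials are proportional over `F`. -/
theorem exists_tw_eq {A₁ A₂ : Divisor K F} {ω₁ ω₂ : Module.Dual K ↥(repartitions K F)}
    (h₁ : ω₁ ∈ Om A₁) (h₂ : ω₂ ∈ Om A₂) (h₁0 : ω₁ ≠ 0) (h₂0 : ω₂ ≠ 0) :
    ∃ x₁ x₂ : F, x₁ ≠ 0 ∧ x₂ ≠ 0 ∧ tw ω₁ x₁ = tw ω₂ x₂ := by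
  classical
  obtain ⟨P⟩ := hFF.nonempty_place
  have hg := g_nonneg g h42
  set n : ℕ := (3 * g - Divisor.degree A₁ - Divisor.degree A₂).toNat + 2 with hn
  have hn1 : 3 * g - Divisor.degree A₁ - Divisor.degree A₂ ≤
      ((3 * g - Divisor.degree A₁ - Divisor.degree A₂).toNat : ℤ) := Int.self_le_toNat _
  set D : Divisor K F := -((n : ℤ) • prim P) with hD
  have hdegD : Divisor.degree D = -(n : ℤ) := by
    rw [hD, map_neg, map_zsmul, degree_prim']; simp
  have hdegD2 : Divisor.degree D ≤ -2 := by rw [hdegD, hn]; push_cast; omega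
  have : Module.Finite K (Om D) := finite_Om_of_le g h42 hdegD2
  have hinj : ∀ {ω : Module.Dual K ↥(repartitions K F)}, ω ≠ 0 →
      Function.Injective (tw ω) := by
    intro ω hω0
    rw [injective_iff_map_eq_zero]
    intro x hx
    by_contra hx0
    exact hω0 (eq_zero_of_tw_eq_zero hx0 hx)
  set U₁ : Submodule K (Module.Dual K ↥(repartitions K F)) :=
    (riemannRochSpace (A₁ - D)).map (tw ω₁) with hU₁
  set U₂ : Submodule K (Module.Dual K ↥(repartitions K F)) :=
    (riemannRochSpace (A₂ - D)).map (tw ω₂) with hU₂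
  have hU₁le : U₁ ≤ Om D := by
    rintro _ ⟨x, hx, rfl⟩
    exact tw_mem_Om_of_mem_L h₁ hx
  have hU₂le : U₂ ≤ Om D := by
    rintro _ ⟨x, hx, rfl⟩
    exact tw_mem_Om_of_mem_L h₂ hx
  have : FiniteDimensional K U₁ := Submodule.finiteDimensional_of_le hU₁le
  have : FiniteDimensional K U₂ := Submodule.finiteDimensional_of_le hU₂le
  have hf₁ : Module.finrank K U₁ = ell (A₁ - D) :=
    (Submodule.equivMapOfInjective (tw ω₁) (hinj h₁0) _).finrank_eq.symm
  have hf₂ : Module.finrank K U₂ = ell (A₂ - D) :=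
    (Submodule.equivMapOfInjective (tw ω₂) (hinj h₂0) _).finrank_eq.symm
  have hsum := Submodule.finrank_sup_add_finrank_inf_eq U₁ U₂
  have hsup : Module.finrank K ↥(U₁ ⊔ U₂) ≤ Module.finrank K (Om D) :=
    Submodule.finrank_mono (sup_le hU₁le hU₂le)
  have hOm := finrank_Om_of_neg g h42 (D := D) (by omega)
  have hr₁ := riemann_ineq g h42 (A₁ - D)
  have hr₂ := riemann_ineq g h42 (A₂ - D)
  rw [map_sub, hdegD] at hr₁ hr₂
  rw [hdegD] at hOm
  have hne : U₁ ⊓ U₂ ≠ ⊥ := by
    intro hbot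
    rw [hbot, finrank_bot, add_zero, hf₁, hf₂] at hsum
    have hsum' : (Module.finrank K ↥(U₁ ⊔ U₂) : ℤ) = ell (A₁ - D) + ell (A₂ - D) := by
      exact_mod_cast hsum
    have hsup' : (Module.finrank K ↥(U₁ ⊔ U₂) : ℤ) ≤ Module.finrank K (Om D) := by
      exact_mod_cast hsup
    have hnn : (n : ℤ) = (3 * g - Divisor.degree A₁ - Divisor.degree A₂).toNat + 2 := by
      rw [hn]; push_cast; rfl
    omega
  obtain ⟨η, hη, hη0⟩ := Submodule.exists_mem_ne_zero_of_ne_bot hne
  obtain ⟨⟨x₁, -, hx₁⟩, ⟨x₂, -, hx₂⟩⟩ := hη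
  refine ⟨x₁, x₂, ?_, ?_, hx₁.trans hx₂.symm⟩
  · rintro rfl
    rw [map_zero] at hx₁
    exact hη0 hx₁.symm
  · rintro rfl
    rw [map_zero] at hx₂
    exact hη0 hx₂.symm

omit hFF h42 in
/-- If `ω` vanishes on `𝔸(W)` and on `𝔸(A)` and `W v < A v`, then `ω` vanishes on
`𝔸(W + P_v)`. -/
theorem mem_Om_add_prim {W A : Divisor K F} {ω : Module.Dual K ↥(repartitions K F)}
    (hW : ω ∈ Om W) (hA : ω ∈ Om A) {v : Place K F} (hv : W v < A v) :
    ω ∈ Om (W + prim v) := by
  classical
  rw [mem_Om_iff] at hW hA ⊢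
  refine ⟨fun α hα => ?_, hW.2⟩
  have hmem : (Pi.single v ((α : Place K F → F) v) : Place K F → F) ∈ repartitions K F := by
    apply mem_repartitions_of_finite_ord
    apply (Set.finite_singleton v).subset
    intro w hw
    by_contra hne
    have hw' : w.ord ((Pi.single v ((α : Place K F → F) v) : Place K F → F) w) < 0 := hw
    rw [Pi.single_eq_of_ne hne, Place.ord_zero] at hw'
    exact lt_irrefl _ hw'
  set α' : ↥(repartitions K F) := ⟨_, hmem⟩ with hα'
  have hcoe : ∀ w, (α' : Place K F → F) w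
      = (Pi.single v ((α : Place K F → F) v) : Place K F → F) w := fun w => rfl
  rw [mem_repartitionsOf_iff] at hα
  have h1 : α' ∈ repartitionsOf A := by
    rw [mem_repartitionsOf_iff]
    intro w
    rw [hcoe]
    by_cases hw : w = v
    · subst hw
      rw [Pi.single_eq_same]
      rcases hα w with h0 | h0
      · exact Or.inl h0
      · right
        simp only [Finsupp.coe_add, Pi.add_apply, prim_apply_self] at h0
        omega
    · left
      exact Pi.single_eq_of_ne hw _
  have h2 : α - α' ∈ repartitionsOf W := by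
    rw [mem_repartitionsOf_iff]
    intro w
    have hsub : ((α - α' : ↥(repartitions K F)) : Place K F → F) w
        = (α : Place K F → F) w - (α' : Place K F → F) w := rfl
    rw [hsub, hcoe]
    by_cases hw : w = v
    · subst hw
      left
      rw [Pi.single_eq_same, sub_self]
    · rw [Pi.single_eq_of_ne hw, sub_zero]
      have := hα w
      simpa [prim_apply_of_ne hw] using this
  have hsplit : α = α' + (α - α') := by abel
  rw [hsplit, map_add, hA.1 _ h1, hW.1 _ h2, add_zero]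

/-- The divisor `(ω)` of a nonzero Weil differential: the largest `W` with `ω ∈ Ω(W)`. -/
theorem exists_max {A₀ : Divisor K F} {ω : Module.Dual K ↥(repartitions K F)}
    (hω : ω ∈ Om A₀) (hω0 : ω ≠ 0) :
    ∃ W : Divisor K F, ω ∈ Om W ∧ ∀ A : Divisor K F, ω ∈ Om A → A ≤ W := by
  have hbdd : ∃ b : ℤ, ∀ z : ℤ,
      (∃ A : Divisor K F, ω ∈ Om A ∧ Divisor.degree A = z) → z ≤ b :=
    ⟨2 * g - 2, by
      rintro z ⟨A, hA, rfl⟩
      exact degree_le_of_mem_Om g h42 hA hω0⟩
  obtain ⟨d, ⟨W, hW, hWd⟩, hmax⟩ := Int.exists_greatest_of_bdd hbdd ⟨_, A₀, hω, rfl⟩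
  refine ⟨W, hW, fun A hA => ?_⟩
  by_contra hle
  rw [Finsupp.le_def, not_forall] at hle
  obtain ⟨v, hv⟩ := hle
  rw [not_le] at hv
  have h1 := mem_Om_add_prim hW hA hv
  have h2 := hmax _ ⟨_, h1, rfl⟩
  rw [map_add, degree_prim', hWd] at h2
  omega

/-- **L5, hypothesis-explicit form**: existence of a canonical divisor (duality theorem) from
Riemann–Roch in its first form, for an arbitrary integer `g`. -/
theorem exists_canonical_of :
    ∃ W : Divisor K F, ∀ D : Divisor K F, Module.finrank K (H1 D) = ell (W - D) := by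
  obtain ⟨P⟩ := hFF.nonempty_place
  set D₀ : Divisor K F := -((2 : ℤ) • prim P) with hD₀
  have hdeg : Divisor.degree D₀ = -2 := by
    rw [hD₀, map_neg, map_zsmul, degree_prim']; simp
  have hfr := finrank_Om_of_neg g h42 (D := D₀) (by omega)
  have hg := g_nonneg g h42
  have hpos : 0 < Module.finrank K (Om D₀) := by omega
  have hnt : Nontrivial (Om D₀) := Module.nontrivial_of_finrank_pos (R := K) hpos
  obtain ⟨ω₀', hω₀'⟩ := exists_ne (0 : Om D₀)
  set ω₀ : Module.Dual K ↥(repartitions K F) := ω₀'.1 with hω₀def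
  have hω₀ : ω₀ ≠ 0 := fun h => hω₀' (Subtype.ext h)
  obtain ⟨W, hW, hmax⟩ := exists_max g h42 ω₀'.2 hω₀
  refine ⟨W, fun D => ?_⟩
  rw [← finrank_Om]
  let ψ : riemannRochSpace (W - D) →ₗ[K] Om D :=
    LinearMap.codRestrict (Om D) ((tw ω₀).domRestrict (riemannRochSpace (W - D)))
      (fun x => tw_mem_Om_of_mem_L hW x.2)
  have hinj : Function.Injective ψ := by
    rw [injective_iff_map_eq_zero]
    intro x hx
    have h1 : tw ω₀ (x : F) = 0 := congrArg Subtype.val hx
    by_contra hx0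
    exact hω₀ (eq_zero_of_tw_eq_zero (fun h => hx0 (Subtype.ext h)) h1)
  have hsurj : Function.Surjective ψ := by
    rintro ⟨η, hη⟩
    rcases eq_or_ne η 0 with rfl | hη0
    · exact ⟨0, by rw [map_zero]; rfl⟩
    obtain ⟨x₁, x₂, hx₁, hx₂, hx⟩ := exists_tw_eq g h42 hη hW hη0 hω₀
    have hxne : x₂ * x₁⁻¹ ≠ 0 := mul_ne_zero hx₂ (inv_ne_zero hx₁)
    have htw : tw ω₀ (x₂ * x₁⁻¹) = η := by
      rw [← tw_tw, ← hx, tw_tw, mul_inv_cancel₀ hx₁, tw_one]
    have hmemOm : ω₀ ∈ Om (D - divOf (x₂ * x₁⁻¹) hxne) :=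
      mem_Om_of_tw_mem hxne (by rw [htw]; exact hη)
    have hle := hmax _ hmemOm
    have hmemL : x₂ * x₁⁻¹ ∈ riemannRochSpace (W - D) := by
      rw [mem_L_iff]
      intro v
      right
      have := Finsupp.le_def.mp hle v
      simp only [Finsupp.coe_sub, Pi.sub_apply, divOf_apply] at this ⊢
      omega
    exact ⟨⟨x₂ * x₁⁻¹, hmemL⟩, Subtype.ext htw⟩
  exact (LinearEquiv.ofBijective ψ ⟨hinj, hsurj⟩).finrank_eq.symm

end numerics

end Fermat.Agent.Lib.RR.H647
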