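import Fermat.Agent.Lib.RR.Basic

/-!
# RR library, layer L5 (helper647): Weil differentials

`𝔸 = repartitions K F`.  A Weil differential is a `K`-linear functional on `𝔸` vanishing on
`𝔸(D) + F` for some divisor `D`; `Om D` is the space of those vanishing on `𝔸(D) + F`
(the dual of `H¹(D)`).  `tw ω x` is the twisted functional `α ↦ ω (x α)`.
-/

set_option autoImplicit false

noncomputable section

open AlgebraicCurve

namespace Fermat.Agent.Lib.RR.H647

variable {K F : Type*} [Field K] [Field F] [Algebra K F]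

/-- multiplication by `x` on repartitions, as a `K`-linear map -/
def mulRep (x : F) : ↥(repartitions K F) →ₗ[K] ↥(repartitions K F) :=
  DistribSMul.toLinearMap K ↥(repartitions K F) x

@[simp] theorem mulRep_apply (x : F) (α : ↥(repartitions K F)) : mulRep (K := K) x α = x • α :=
  rfl

theorem coe_smul_apply (x : F) (α : ↥(repartitions K F)) (v : Place K F) :
    ((x • α : ↥(repartitions K F)) : Place K F → F) v = x * (α : Place K F → F) v := rfl

/-- the twisted functional `x ω : α ↦ ω (x α)`, `K`-linear in `x` -/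
def tw (ω : Module.Dual K ↥(repartitions K F)) :
    F →ₗ[K] Module.Dual K ↥(repartitions K F) where
  toFun x := ω.comp (mulRep x)
  map_add' x y := by
    ext α
    simp [add_smul]
  map_smul' c x := by
    ext α
    simp [smul_assoc]

theorem tw_apply (ω : Module.Dual K ↥(repartitions K F)) (x : F) (α : ↥(repartitions K F)) :
    tw ω x α = ω (x • α) := rfl

theorem tw_one (ω : Module.Dual K ↥(repartitions K F)) : tw ω 1 = ω := by
  ext α
  simp [tw_apply]

theorem tw_tw (ω : Module.Dual K ↥(repartitions K F)) (x y : F) :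
    tw (tw ω x) y = tw ω (x * y) := by
  ext α
  simp [tw_apply, mul_smul]

theorem tw_zero_left (x : F) : tw (0 : Module.Dual K ↥(repartitions K F)) x = 0 := by
  ext α
  simp [tw_apply]

/-- `x ω = 0` with `x ≠ 0` forces `ω = 0`. -/
theorem eq_zero_of_tw_eq_zero {ω : Module.Dual K ↥(repartitions K F)} {x : F} (hx : x ≠ 0)
    (h : tw ω x = 0) : ω = 0 := by
  have := congrArg (fun η => tw η x⁻¹) h
  simp only [tw_tw, mul_inv_cancel₀ hx, tw_one, tw_zero_left] at this
  exact this

/-- The Weil differentials vanishing on `𝔸(D) + F`. -/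
def Om (D : Divisor K F) : Submodule K (Module.Dual K ↥(repartitions K F)) :=
  (repartitionsOf D ⊔ principalRepartitions K F).dualAnnihilator

theorem mem_Om_iff {D : Divisor K F} {ω : Module.Dual K ↥(repartitions K F)} :
    ω ∈ Om D ↔ (∀ α ∈ repartitionsOf D, ω α = 0) ∧
      ∀ f : F, ω (algebraMap F ↥(repartitions K F) f) = 0 := by
  unfold Om
  rw [Submodule.dualAnnihilator_sup_eq, Submodule.mem_inf, Submodule.mem_dualAnnihilator,
    Submodule.mem_dualAnnihilator]
  refine and_congr Iff.rfl ?_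
  constructor
  · intro h f
    exact h _ ⟨f, rfl⟩
  · rintro h _ ⟨f, rfl⟩
    exact h f

theorem finrank_Om (D : Divisor K F) : Module.finrank K (Om D) = Module.finrank K (H1 D) := by
  unfold Om
  rw [← (Submodule.dualQuotEquivDualAnnihilator
    (repartitionsOf D ⊔ principalRepartitions K F)).finrank_eq]
  exact Subspace.dual_finrank_eq

theorem Om_anti {D D' : Divisor K F} (h : D ≤ D') : Om D' ≤ Om D := by
  intro ω hω
  rw [mem_Om_iff] at hω ⊢
  exact ⟨fun α hα => hω.1 α (repartitionsOf_mono h hα), hω.2⟩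


section FF1

variable [hFF : FF1 K F]

/-- `x ω` vanishes on `𝔸(D)` as soon as `D ≤ A + div x` and `ω` vanishes on `𝔸(A)`. -/
theorem tw_mem_Om {A D : Divisor K F} {ω : Module.Dual K ↥(repartitions K F)} (hω : ω ∈ Om A)
    {x : F} (hx : x ≠ 0) (hD : D ≤ A + divOf x hx) : tw ω x ∈ Om D := by
  rw [mem_Om_iff] at hω ⊢
  refine ⟨fun α hα => ?_, fun f => ?_⟩
  · rw [tw_apply]
    apply hω.1
    rw [mem_repartitionsOf_iff] at hα ⊢
    intro v
    rw [coe_smul_apply]
    rcases hα v with h0 | h1
    · left; rw [h0, mul_zero]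
    · rcases eq_or_ne ((α : Place K F → F) v) 0 with h0 | h0
      · left; rw [h0, mul_zero]
      right
      rw [v.ord_mul hx h0]
      have := Finsupp.le_def.mp hD v
      simp only [Finsupp.coe_add, Pi.add_apply, divOf_apply] at this
      omega
  · rw [tw_apply, Algebra.smul_def, ← map_mul]
    exact hω.2 _

/-- `x ∈ L(A - D)`, `ω ∈ Ω(A)` ⟹ `x ω ∈ Ω(D)`. -/
theorem tw_mem_Om_of_mem_L {A D : Divisor K F} {ω : Module.Dual K ↥(repartitions K F)}
    (hω : ω ∈ Om A) {x : F} (hx : x ∈ riemannRochSpace (A - D)) : tw ω x ∈ Om D := by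
  rcases eq_or_ne x 0 with rfl | hx0
  · rw [map_zero]; exact Submodule.zero_mem _
  apply tw_mem_Om hω hx0
  rw [Finsupp.le_def]
  intro v
  have := (mem_L_iff.mp hx v).resolve_left hx0
  simp only [Finsupp.coe_sub, Pi.sub_apply, Finsupp.coe_add, Pi.add_apply, divOf_apply] at this ⊢
  omega

/-- If `x ≠ 0` and `x ω ∈ Ω(D)` then `ω ∈ Ω(D - div x)`. -/
theorem mem_Om_of_tw_mem {D : Divisor K F} {ω : Module.Dual K ↥(repartitions K F)}
    {x : F} (hx : x ≠ 0) (h : tw ω x ∈ Om D) : ω ∈ Om (D - divOf x hx) := by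
  have h1 : tw (tw ω x) x⁻¹ ∈ Om (D - divOf x hx) := by
    apply tw_mem_Om h (inv_ne_zero hx)
    rw [Finsupp.le_def]
    intro v
    simp only [Finsupp.coe_sub, Pi.sub_apply, Finsupp.coe_add, Pi.add_apply, divOf_apply,
      v.ord_inv]
    omega
  rwa [tw_tw, mul_inv_cancel₀ hx, tw_one] at h1

end FF1

end Fermat.Agent.Lib.RR.H647
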